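/-
Abstract Deligne–Serre lifting lemma (helper1).
-/
import Mathlib

set_option autoImplicit false
set_option linter.style.haveILetI false

namespace Fermat.Agent.Lib.Helper1

open Module

/-- A commuting family of endomorphisms (given as a ring hom from a commutative ring) preserving a
nonzero subspace of a finite-dimensional complex vector space has a common eigenvector in it. -/
theorem exists_common_eigenvector
    {V : Type*} [AddCommGroup V] [Module ℂ V] [FiniteDimensional ℂ V]
    {T : Type*} [CommRing T] (ι : T →+* Module.End ℂ V)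
    (W : Submodule ℂ V) (hW : W ≠ ⊥) (hinv : ∀ t : T, ∀ w ∈ W, ι t w ∈ W) :
    ∃ v ∈ W, v ≠ 0 ∧ ∀ t : T, ∃ μ : ℂ, ι t v = μ • v := by
  induction' hn : finrank ℂ W using Nat.strong_induction_on with n ih generalizing W
  by_cases hsc : ∀ t : T, ∃ μ : ℂ, ∀ w ∈ W, ι t w = μ • w
  · obtain ⟨v, hvW, hv0⟩ := (Submodule.ne_bot_iff W).1 hW
    refine ⟨v, hvW, hv0, fun t => ?_⟩
    obtain ⟨μ, hμ⟩ := hsc t
    exact ⟨μ, hμ v hvW⟩
  · push Not at hsc
    obtain ⟨t, ht⟩ := hsc
    -- eigenvalue of `ι t` on `W`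
    have : Nontrivial W := Submodule.nontrivial_iff_ne_bot.2 hW
    obtain ⟨μ, hμ⟩ := Module.End.exists_eigenvalue ((ι t).restrict (hinv t))
    obtain ⟨w, hw⟩ := hμ.exists_hasEigenvector
    let W' : Submodule ℂ V := W ⊓ LinearMap.ker (ι t - μ • (1 : Module.End ℂ V))
    have hwW' : (w : V) ∈ W' := by
      refine Submodule.mem_inf.2 ⟨w.2, ?_⟩
      have h1 := hw.apply_eq_smul
      have h2 : ι t (w : V) = μ • (w : V) := by
        have := congrArg Subtype.val h1
        simpa using this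
      simp [LinearMap.mem_ker, h2]
    have hW'ne : W' ≠ ⊥ := by
      intro h
      have : (w : V) ∈ (⊥ : Submodule ℂ V) := h ▸ hwW'
      have h0 : (w : V) = 0 := by simpa using this
      exact hw.2 (Subtype.ext h0)
    have hW'inv : ∀ s : T, ∀ x ∈ W', ι s x ∈ W' := by
      intro s x hx
      refine Submodule.mem_inf.2 ⟨hinv s x (Submodule.mem_inf.1 hx).1, ?_⟩
      have hx2 : ι t x = μ • x := by
        have := (Submodule.mem_inf.1 hx).2
        simp only [LinearMap.mem_ker, LinearMap.sub_apply, LinearMap.smul_apply,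
          Module.End.one_apply] at this
        exact sub_eq_zero.1 this
      have hcomm : ι t (ι s x) = ι s (ι t x) := by
        have : ι t * ι s = ι s * ι t := by rw [← map_mul, ← map_mul, mul_comm]
        exact congrArg (fun f : Module.End ℂ V => f x) this
      simp only [LinearMap.mem_ker, LinearMap.sub_apply, LinearMap.smul_apply,
        Module.End.one_apply]
      rw [hcomm, hx2, map_smul, sub_self]
    have hW'lt : W' < W := by
      refine lt_of_le_of_ne inf_le_left ?_
      intro heq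
      obtain ⟨x, hxW, hx⟩ := ht μ
      have hx' : x ∈ W' := heq ▸ hxW
      have := (Submodule.mem_inf.1 hx').2
      simp only [LinearMap.mem_ker, LinearMap.sub_apply, LinearMap.smul_apply,
        Module.End.one_apply] at this
      exact hx (sub_eq_zero.1 this)
    have hlt : finrank ℂ W' < n := hn ▸ Submodule.finrank_lt_finrank_of_lt hW'lt
    obtain ⟨v, hvW', hv0, hv⟩ := ih (finrank ℂ W') hlt W' hW'ne hW'inv rfl
    exact ⟨v, hvW'.1, hv0, hv⟩


/-- **Abstract Deligne–Serre lifting lemma.**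
`T` a commutative ring, finitely generated as an abelian group, acting faithfully on a
finite-dimensional complex vector space `V`; `χbar : T →+* k` a ring hom to a field.
Then there is a common eigenvector `v ≠ 0` whose eigencharacter `χ` takes values in the algebraic
integers, and a maximal ideal `𝔪'` of the ring of algebraic integers with
`χbar t = 0 → χ t ∈ 𝔪'`. -/
theorem deligne_serre_lift
    {V : Type*} [AddCommGroup V] [Module ℂ V] [FiniteDimensional ℂ V]
    {T : Type*} [CommRing T] (hfin : AddGroup.FG T)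
    (ι : T →+* Module.End ℂ V) (hι : Function.Injective ι)
    {k : Type*} [Field k] (χbar : T →+* k) :
    ∃ (v : V) (χ : T →+* integralClosure ℤ ℂ) (𝔪' : Ideal (integralClosure ℤ ℂ)),
      v ≠ 0 ∧ (∀ t : T, ι t v = ((χ t : integralClosure ℤ ℂ) : ℂ) • v) ∧ 𝔪'.IsMaximal ∧
      ∀ t : T, χbar t = 0 → χ t ∈ 𝔪' := by
  classical
  haveI : Module.Finite ℤ T := Module.Finite.iff_addGroup_fg.mpr hfin
  haveI : IsNoetherianRing T := IsNoetherianRing.of_finite ℤ T
  haveI : Algebra.IsIntegral ℤ T := Algebra.IsIntegral.of_finite ℤ T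
  -- the prime `𝔪 = ker χbar` and a minimal prime below it
  set 𝔪 : Ideal T := RingHom.ker χbar with h𝔪
  haveI h𝔪prime : 𝔪.IsPrime := RingHom.ker_isPrime χbar
  obtain ⟨𝔭, h𝔭min, h𝔭le⟩ := Ideal.exists_minimalPrimes_le (bot_le : (⊥ : Ideal T) ≤ 𝔪)
  haveI h𝔭prime : 𝔭.IsPrime := h𝔭min.1.1
  -- `𝔭` is an associated prime of `T`
  have hann : Module.annihilator T T = ⊥ := by
    rw [eq_bot_iff]
    intro x hx
    have := Module.mem_annihilator.1 hx (1 : T)
    simpa using this
  have hass : 𝔭 ∈ associatedPrimes T T := by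
    apply Module.associatedPrimes.minimalPrimes_annihilator_subset_associatedPrimes T T
    rw [hann]; exact h𝔭min
  obtain ⟨-, t₀, ht₀⟩ := (isAssociatedPrime_iff).1 hass
  have ht₀mem : ∀ t : T, t ∈ 𝔭 ↔ t * t₀ = 0 := by
    intro t
    rw [ht₀, Submodule.mem_colon_singleton]
    simp
  have ht₀ne : t₀ ≠ 0 := by
    rintro rfl
    have : (1 : T) ∈ 𝔭 := (ht₀mem 1).2 (by simp)
    exact h𝔭prime.ne_top ((Ideal.eq_top_iff_one _).2 this)
  -- the subspace killed by `𝔭`
  let W : Submodule ℂ V := ⨅ t ∈ 𝔭, LinearMap.ker (ι t)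
  have hWmem : ∀ x : V, x ∈ W ↔ ∀ t ∈ 𝔭, ι t x = 0 := by
    intro x
    simp only [W, Submodule.mem_iInf, LinearMap.mem_ker]
  have hWne : W ≠ ⊥ := by
    have hne : ι t₀ ≠ 0 := fun h => ht₀ne (hι (by rw [h, map_zero]))
    obtain ⟨x, hx⟩ : ∃ x, ι t₀ x ≠ 0 := by
      by_contra hcon
      push Not at hcon
      exact hne (LinearMap.ext hcon)
    intro hbot
    have hmem : ι t₀ x ∈ W := by
      rw [hWmem]
      intro t ht
      have h0 : t * t₀ = 0 := (ht₀mem t).1 ht
      have : ι t (ι t₀ x) = (ι (t * t₀)) x := by rw [map_mul]; rfl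
      rw [this, h0, map_zero]; rfl
    rw [hbot] at hmem
    exact hx (by simpa using hmem)
  have hWinv : ∀ s : T, ∀ w ∈ W, ι s w ∈ W := by
    intro s w hw
    rw [hWmem] at hw ⊢
    intro t ht
    have hcomm : ι t (ι s w) = ι s (ι t w) := by
      have : ι t * ι s = ι s * ι t := by rw [← map_mul, ← map_mul, mul_comm]
      exact congrArg (fun f : Module.End ℂ V => f w) this
    rw [hcomm, hw t ht, map_zero]
  obtain ⟨v, hvW, hv0, hv⟩ := exists_common_eigenvector ι W hWne hWinv
  choose μ hμ using hv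
  -- `μ` is a ring hom
  have hμuniq : ∀ a b : ℂ, a • v = b • v → a = b := fun a b h =>
    smul_left_injective ℂ hv0 h
  let χ₀ : T →+* ℂ :=
    { toFun := μ
      map_one' := by
        apply hμuniq
        rw [← hμ 1, map_one, one_smul]; rfl
      map_mul' := by
        intro s t
        apply hμuniq
        rw [← hμ (s * t), map_mul, Module.End.mul_apply, hμ t, map_smul, hμ s, smul_smul, mul_comm]
      map_zero' := by
        apply hμuniq
        rw [← hμ 0, map_zero, zero_smul]; rfl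
      map_add' := by
        intro s t
        apply hμuniq
        rw [← hμ (s + t), map_add, LinearMap.add_apply, hμ s, hμ t, add_smul] }
  have hχ₀ : ∀ t, ι t v = χ₀ t • v := hμ
  have hχ₀int : ∀ t : T, χ₀ t ∈ integralClosure ℤ ℂ := by
    intro t
    exact (Algebra.IsIntegral.isIntegral (R := ℤ) t).map (χ₀ : T →+* ℂ).toIntAlgHom
  -- kernel of χ₀ is 𝔭
  have h𝔭ker : 𝔭 ≤ RingHom.ker χ₀ := by
    intro t ht
    rw [RingHom.mem_ker]
    have h1 : ι t v = 0 := (hWmem v).1 hvW t ht
    rw [hχ₀ t] at h1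
    exact (smul_eq_zero.1 h1).resolve_right hv0
  have hker𝔭 : RingHom.ker χ₀ ≤ 𝔭 := by
    -- work in the domain `T ⧸ 𝔭`, integral over `ℤ`
    intro t ht
    have hcomap : (Ideal.map (Ideal.Quotient.mk 𝔭) (RingHom.ker χ₀)).comap
        (algebraMap ℤ (T ⧸ 𝔭)) = ⊥ := by
      rw [eq_bot_iff]
      intro n hn
      rw [Ideal.mem_comap] at hn
      have hsurj : Function.Surjective (Ideal.Quotient.mk 𝔭) := Ideal.Quotient.mk_surjective
      rw [Ideal.mem_map_iff_of_surjective _ hsurj] at hn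
      obtain ⟨x, hx, hxn⟩ := hn
      -- x - n ∈ 𝔭 ⊆ ker χ₀, so n ∈ ker χ₀, so n = 0
      have h1 : x - (n : T) ∈ 𝔭 := by
        rw [← Ideal.Quotient.eq]
        rw [hxn]; simp
      have h2 : χ₀ (x - (n : T)) = 0 := h𝔭ker h1
      rw [map_sub, (RingHom.mem_ker).1 hx, zero_sub, neg_eq_zero, map_intCast] at h2
      have : n = 0 := by exact_mod_cast h2
      simp [this]
    haveI : Algebra.IsIntegral ℤ (T ⧸ 𝔭) := by
      refine ⟨fun y => ?_⟩
      obtain ⟨x, rfl⟩ := Ideal.Quotient.mk_surjective y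
      exact (Algebra.IsIntegral.isIntegral (R := ℤ) x).map (Ideal.Quotient.mkₐ ℤ 𝔭)
    have hbot := Ideal.eq_bot_of_comap_eq_bot hcomap
    have : Ideal.Quotient.mk 𝔭 t ∈ Ideal.map (Ideal.Quotient.mk 𝔭) (RingHom.ker χ₀) :=
      Ideal.mem_map_of_mem _ ht
    rw [hbot] at this
    exact Ideal.Quotient.eq_zero_iff_mem.1 (by simpa using this)
  -- integral-valued version
  let χ : T →+* integralClosure ℤ ℂ := RingHom.codRestrict χ₀ (integralClosure ℤ ℂ) hχ₀int
  have hχcoe : ∀ t, ((χ t : integralClosure ℤ ℂ) : ℂ) = χ₀ t := fun t => rfl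
  have hkerχ : RingHom.ker χ = RingHom.ker χ₀ := by
    ext t
    simp only [RingHom.mem_ker]
    constructor
    · intro h
      rw [← hχcoe, h]; rfl
    · intro h
      apply Subtype.ext
      rw [hχcoe, h]; rfl
  -- lying over
  letI : Algebra T (integralClosure ℤ ℂ) := χ.toAlgebra
  haveI : Algebra.IsIntegral T (integralClosure ℤ ℂ) := by
    refine ⟨fun y => ?_⟩
    have hy : IsIntegral ℤ y := Algebra.IsIntegral.isIntegral (R := ℤ) y
    exact hy.tower_top
  have hle : (⊥ : Ideal (integralClosure ℤ ℂ)).comap (algebraMap T (integralClosure ℤ ℂ)) ≤ 𝔪 := by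
    have : (⊥ : Ideal (integralClosure ℤ ℂ)).comap (algebraMap T (integralClosure ℤ ℂ))
        = RingHom.ker χ := by
      rw [RingHom.ker_eq_comap_bot]; rfl
    rw [this, hkerχ]
    exact hker𝔭.trans h𝔭le
  obtain ⟨Q, -, hQprime, hQ⟩ := Ideal.exists_ideal_over_prime_of_isIntegral 𝔪 ⊥ hle
  obtain ⟨𝔪', h𝔪'max, hQle⟩ := Ideal.exists_le_maximal Q hQprime.ne_top
  refine ⟨v, χ, 𝔪', hv0, fun t => ?_, h𝔪'max, fun t ht => ?_⟩
  · rw [hχcoe]; exact hχ₀ t
  · apply hQle
    have : t ∈ Q.comap (algebraMap T (integralClosure ℤ ℂ)) := by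
      rw [hQ]; exact (RingHom.mem_ker).2 ht
    exact this

end Fermat.Agent.Lib.Helper1
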