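import Mathlib

/-!
# Primitives of holomorphic functions on the upper half plane

Mathlib only provides primitives on discs; we glue over the increasing family of discs
`B(i(n+1), n+1)` exhausting the upper half plane.
-/

namespace Fermat.Agent.Lib.Helper1

open Complex Metric Set Topology

noncomputable section

variable {E : Type*} [NormedAddCommGroup E] [NormedSpace ℂ E]

/-- the exhausting discs -/
def uhpBall (n : ℕ) : Set ℂ := ball (((n : ℂ) + 1) * I) ((n : ℝ) + 1)

lemma mem_uhpBall_iff (n : ℕ) (z : ℂ) :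
    z ∈ uhpBall n ↔ z.re ^ 2 + z.im ^ 2 < 2 * z.im * ((n : ℝ) + 1) := by
  unfold uhpBall
  rw [mem_ball, dist_eq_re_im]
  have h1 : (((n : ℂ) + 1) * I).re = 0 := by simp
  have h2 : (((n : ℂ) + 1) * I).im = (n : ℝ) + 1 := by simp
  rw [h1, h2]
  have hn : (0 : ℝ) ≤ (n : ℝ) + 1 := by positivity
  rw [Real.sqrt_lt' (by positivity)]
  constructor <;> intro h <;> nlinarith

lemma uhpBall_subset (n : ℕ) : uhpBall n ⊆ {z : ℂ | 0 < z.im} := by
  intro z hz
  rw [mem_uhpBall_iff] at hz
  have hn : (0 : ℝ) < (n : ℝ) + 1 := by positivity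
  by_contra h
  have h : z.im ≤ 0 := not_lt.mp h
  nlinarith [sq_nonneg z.re, sq_nonneg z.im]

lemma uhpBall_mono {m n : ℕ} (h : m ≤ n) : uhpBall m ⊆ uhpBall n := by
  intro z hz
  have hz0 : 0 < z.im := uhpBall_subset m hz
  rw [mem_uhpBall_iff] at hz ⊢
  have : (m : ℝ) ≤ n := by exact_mod_cast h
  nlinarith

lemma I_mem_uhpBall (n : ℕ) : I ∈ uhpBall n := by
  rw [mem_uhpBall_iff]
  simp
  have : (0 : ℝ) ≤ n := by positivity
  linarith

lemma exists_mem_uhpBall {z : ℂ} (hz : 0 < z.im) : ∃ n : ℕ, z ∈ uhpBall n := by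
  obtain ⟨n, hn⟩ := exists_nat_gt ((z.re ^ 2 + z.im ^ 2) / (2 * z.im))
  refine ⟨n, ?_⟩
  rw [mem_uhpBall_iff]
  rw [div_lt_iff₀ (by positivity)] at hn
  nlinarith

lemma isOpen_uhpBall (n : ℕ) : IsOpen (uhpBall n) := isOpen_ball

variable [CompleteSpace E]

/-- Every holomorphic function on the upper half plane has a primitive. -/
theorem exists_primitive_upperHalfPlane (g : ℂ → E)
    (hg : DifferentiableOn ℂ g {z : ℂ | 0 < z.im}) :
    ∃ G : ℂ → E, G I = 0 ∧ ∀ z : ℂ, 0 < z.im → HasDerivAt G (g z) z := by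
  classical
  have hex : ∀ n : ℕ, ∃ Gn : ℂ → E, Gn I = 0 ∧ ∀ z ∈ uhpBall n, HasDerivAt Gn (g z) z := by
    intro n
    have h1 : DifferentiableOn ℂ g (uhpBall n) := hg.mono (uhpBall_subset n)
    exact (h1.isExactOn_ball).with_val_at I 0
  choose Gn hGnI hGn using hex
  have hcompat : ∀ m n : ℕ, m ≤ n → EqOn (Gn m) (Gn n) (uhpBall m) := by
    intro m n hmn
    apply (isOpen_uhpBall m).eqOn_of_deriv_eq (convex_ball _ _).isPreconnected
    · intro z hz
      exact (hGn m z hz).differentiableAt.differentiableWithinAt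
    · intro z hz
      exact (hGn n z (uhpBall_mono hmn hz)).differentiableAt.differentiableWithinAt
    · intro z hz
      rw [(hGn m z hz).deriv, (hGn n z (uhpBall_mono hmn hz)).deriv]
    · exact I_mem_uhpBall m
    · rw [hGnI, hGnI]
  let N : ℂ → ℕ := fun z => if h : 0 < z.im then Nat.find (exists_mem_uhpBall h) else 0
  have hN : ∀ z : ℂ, 0 < z.im → z ∈ uhpBall (N z) := by
    intro z hz
    simp only [N, dif_pos hz]
    exact Nat.find_spec (exists_mem_uhpBall hz)
  refine ⟨fun z => Gn (N z) z, ?_, ?_⟩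
  · exact hGnI _
  · intro z hz
    have hz' := hN z hz
    refine (hGn (N z) z hz').congr_of_eventuallyEq ?_
    filter_upwards [(isOpen_uhpBall (N z)).mem_nhds hz'] with w hw
    have hw0 : 0 < w.im := uhpBall_subset _ hw
    have hw' := hN w hw0
    rcases le_total (N w) (N z) with h | h
    · exact hcompat _ _ h hw'
    · exact (hcompat _ _ h hw).symm

end

end Fermat.Agent.Lib.Helper1
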