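import Mathlib
import Fermat.Agent.Lib.Helper1.S22Primitive

/-!
# The primitive vanishing at `i∞` of a holomorphic function with exponential decay on strips
-/

namespace Fermat.Agent.Lib.Helper1

open Complex MeasureTheory Set Filter Topology

noncomputable section

/-- exponential decay on vertical strips -/
def StripDecay (g : ℂ → ℂ) : Prop :=
  ∀ B : ℝ, ∃ c : ℝ, 0 < c ∧ ∃ C A : ℝ, ∀ z : ℂ, |z.re| ≤ B → A ≤ z.im →
    ‖g z‖ ≤ C * Real.exp (-c * z.im)

/-- `Λ_g(z) = ∫_{i∞}^z g(u) du`, along the vertical line through `z`. -/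
def vertInt (g : ℂ → ℂ) (z : ℂ) : ℂ := -∫ s in Ioi (0 : ℝ), g (z + s * I) * I

lemma im_add_mul_I (z : ℂ) (s : ℝ) : (z + s * I).im = z.im + s := by simp

lemma re_add_mul_I (z : ℂ) (s : ℝ) : (z + s * I).re = z.re := by simp

lemma continuousOn_vertical {g : ℂ → ℂ} (hg : DifferentiableOn ℂ g {z : ℂ | 0 < z.im})
    {z : ℂ} (hz : 0 < z.im) : ContinuousOn (fun s : ℝ => g (z + s * I) * I) (Ici 0) := by
  have h1 : ContinuousOn (fun s : ℝ => z + (s : ℂ) * I) (Ici 0) := by fun_prop
  have h2 : MapsTo (fun s : ℝ => z + (s : ℂ) * I) (Ici 0) {z : ℂ | 0 < z.im} := by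
    intro s hs
    have hs' : (0 : ℝ) ≤ s := hs
    show 0 < (z + s * I).im
    rw [im_add_mul_I]; linarith
  exact (hg.continuousOn.comp h1 h2).mul continuousOn_const

lemma integrableOn_vertical {g : ℂ → ℂ} (hg : DifferentiableOn ℂ g {z : ℂ | 0 < z.im})
    (hd : StripDecay g) {z : ℂ} (hz : 0 < z.im) :
    IntegrableOn (fun s : ℝ => g (z + s * I) * I) (Ioi 0) := by
  obtain ⟨c, hc, C, A, hb⟩ := hd |z.re|
  have hcont := continuousOn_vertical hg hz
  have hO : (fun s : ℝ => g (z + s * I) * I) =O[atTop] fun s : ℝ => Real.exp (-c * s) := by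
    apply Asymptotics.IsBigO.of_bound (C * Real.exp (-c * z.im))
    filter_upwards [eventually_ge_atTop (A - z.im)] with s hs
    have h1 := hb (z + s * I) (by rw [re_add_mul_I]) (by rw [im_add_mul_I]; linarith)
    rw [norm_mul, norm_I, mul_one, Real.norm_eq_abs, abs_of_pos (Real.exp_pos _)]
    rw [im_add_mul_I] at h1
    calc ‖g (z + s * I)‖ ≤ C * Real.exp (-c * (z.im + s)) := h1
      _ = C * Real.exp (-c * z.im) * Real.exp (-c * s) := by
          rw [mul_assoc, ← Real.exp_add]; ring_nf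
  have := (hcont.locallyIntegrableOn measurableSet_Ici).integrableOn_of_isBigO_atTop hO
    ⟨Ioi c, Ioi_mem_atTop c, exp_neg_integrableOn_Ioi c hc⟩
  exact this.mono_set Ioi_subset_Ici_self

lemma hasDerivAt_vertical {G g : ℂ → ℂ} (hG : ∀ z : ℂ, 0 < z.im → HasDerivAt G (g z) z)
    {z : ℂ} (hz : 0 < z.im) {s : ℝ} (hs : 0 ≤ s) :
    HasDerivAt (fun t : ℝ => G (z + t * I)) (g (z + s * I) * I) s := by
  have h0 : 0 < (z + s * I).im := by rw [im_add_mul_I]; linarith
  have h1 : HasDerivAt (fun w : ℂ => z + w * I) I (s : ℂ) := by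
    simpa using ((hasDerivAt_id (s : ℂ)).mul_const I).const_add z
  have h2 : HasDerivAt (fun w : ℂ => G (z + w * I)) (g (z + s * I) * I) (s : ℂ) :=
    (hG _ h0).comp (s : ℂ) h1
  exact h2.comp_ofReal

lemma intervalIntegral_vertical {G g : ℂ → ℂ} (hg : DifferentiableOn ℂ g {z : ℂ | 0 < z.im})
    (hG : ∀ z : ℂ, 0 < z.im → HasDerivAt G (g z) z)
    {z : ℂ} (hz : 0 < z.im) {T : ℝ} (hT : 0 ≤ T) :
    ∫ s in (0 : ℝ)..T, g (z + s * I) * I = G (z + T * I) - G z := by
  have h := intervalIntegral.integral_eq_sub_of_hasDerivAt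
    (f := fun t : ℝ => G (z + t * I)) (f' := fun s : ℝ => g (z + s * I) * I) (a := 0) (b := T)
    (fun s hs => by
      rw [uIcc_of_le hT] at hs
      exact hasDerivAt_vertical hG hz hs.1)
    (by
      apply ContinuousOn.intervalIntegrable
      rw [uIcc_of_le hT]
      exact (continuousOn_vertical hg hz).mono (fun s hs => hs.1))
  rw [h]
  simp

lemma tendsto_vertical {G g : ℂ → ℂ} (hg : DifferentiableOn ℂ g {z : ℂ | 0 < z.im})
    (hd : StripDecay g) (hG : ∀ z : ℂ, 0 < z.im → HasDerivAt G (g z) z)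
    {z : ℂ} (hz : 0 < z.im) :
    Tendsto (fun T : ℝ => G (z + T * I)) atTop (𝓝 (G z - vertInt g z)) := by
  have h1 := intervalIntegral_tendsto_integral_Ioi (μ := volume) (0 : ℝ)
    (integrableOn_vertical hg hd hz) tendsto_id
  have h2 : Tendsto (fun T : ℝ => G z + ∫ s in (0 : ℝ)..T, g (z + s * I) * I) atTop
      (𝓝 (G z + ∫ s in Ioi (0 : ℝ), g (z + s * I) * I)) := tendsto_const_nhds.add h1
  have h3 : G z - vertInt g z = G z + ∫ s in Ioi (0 : ℝ), g (z + s * I) * I := by
    simp [vertInt]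
  rw [h3]
  refine h2.congr' ?_
  filter_upwards [eventually_ge_atTop (0 : ℝ)] with T hT
  show G z + ∫ s in (0 : ℝ)..T, g (z + s * I) * I = G (z + T * I)
  rw [intervalIntegral_vertical hg hG hz hT]
  ring

lemma tendsto_horizontal_diff {G g : ℂ → ℂ}
    (hd : StripDecay g) (hG : ∀ z : ℂ, 0 < z.im → HasDerivAt G (g z) z) (z z' : ℂ) :
    Tendsto (fun T : ℝ => G (z + T * I) - G (z' + T * I)) atTop (𝓝 0) := by
  obtain ⟨c, hc, C, A, hb⟩ := hd (max |z.re| |z'.re|)
  set B := max |z.re| |z'.re| with hB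
  set m := min z.im z'.im with hm
  have hbound : ∀ T : ℝ, max A 1 - m ≤ T →
      ‖G (z + T * I) - G (z' + T * I)‖ ≤ |C| * Real.exp (-c * (m + T)) * ‖z - z'‖ := by
    intro T hT
    set τ := m + T with hτ
    have hτ1 : max A 1 ≤ τ := by linarith
    let s : Set ℂ := {w : ℂ | |w.re| ≤ B ∧ τ ≤ w.im}
    have hsconv : Convex ℝ s := by
      have h1 : Convex ℝ {w : ℂ | |w.re| ≤ B} := by
        have : {w : ℂ | |w.re| ≤ B} = (reCLM : ℂ →L[ℝ] ℝ) ⁻¹' (Icc (-B) B) := by
          ext w; simp [abs_le]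
        rw [this]
        exact (convex_Icc _ _).linear_preimage reCLM.toLinearMap
      have h2 : Convex ℝ {w : ℂ | τ ≤ w.im} := by
        have : {w : ℂ | τ ≤ w.im} = (imCLM : ℂ →L[ℝ] ℝ) ⁻¹' (Ici τ) := by
          ext w; simp
        rw [this]
        exact (convex_Ici _).linear_preimage imCLM.toLinearMap
      exact h1.inter h2
    have hs_pos : ∀ w ∈ s, 0 < w.im := by
      intro w hw
      have : (1 : ℝ) ≤ τ := le_trans (le_max_right _ _) hτ1
      linarith [hw.2]
    have hzs : z + T * I ∈ s := by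
      refine ⟨?_, ?_⟩
      · rw [re_add_mul_I]; exact le_max_left _ _
      · rw [im_add_mul_I]; have := min_le_left z.im z'.im; linarith
    have hzs' : z' + T * I ∈ s := by
      refine ⟨?_, ?_⟩
      · rw [re_add_mul_I]; exact le_max_right _ _
      · rw [im_add_mul_I]; have := min_le_right z.im z'.im; linarith
    have hderiv : ∀ w ∈ s, HasDerivWithinAt G (g w) s w :=
      fun w hw => (hG w (hs_pos w hw)).hasDerivWithinAt
    have hgb : ∀ w ∈ s, ‖g w‖ ≤ |C| * Real.exp (-c * τ) := by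
      intro w hw
      have hA : A ≤ w.im := le_trans (le_trans (le_max_left _ _) hτ1) hw.2
      have h1 := hb w hw.1 hA
      calc ‖g w‖ ≤ C * Real.exp (-c * w.im) := h1
        _ ≤ |C| * Real.exp (-c * w.im) :=
            mul_le_mul_of_nonneg_right (le_abs_self C) (Real.exp_pos _).le
        _ ≤ |C| * Real.exp (-c * τ) := by
            apply mul_le_mul_of_nonneg_left _ (abs_nonneg C)
            apply Real.exp_le_exp.mpr
            have := hw.2
            nlinarith
    have := hsconv.norm_image_sub_le_of_norm_hasDerivWithin_le hderiv hgb hzs' hzs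
    calc ‖G (z + T * I) - G (z' + T * I)‖ ≤ |C| * Real.exp (-c * τ) * ‖z + T * I - (z' + T * I)‖ :=
          this
      _ = |C| * Real.exp (-c * (m + T)) * ‖z - z'‖ := by
          congr 2; ring_nf
  have hlim : Tendsto (fun T : ℝ => |C| * Real.exp (-c * (m + T)) * ‖z - z'‖) atTop (𝓝 0) := by
    have h1 : Tendsto (fun T : ℝ => c * (m + T)) atTop atTop :=
      (tendsto_atTop_add_const_left atTop m tendsto_id).const_mul_atTop hc
    have h2 : Tendsto (fun T : ℝ => Real.exp (-(c * (m + T)))) atTop (𝓝 0) :=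
      Real.tendsto_exp_neg_atTop_nhds_zero.comp h1
    have h3 : Tendsto (fun T : ℝ => |C| * Real.exp (-(c * (m + T))) * ‖z - z'‖) atTop
        (𝓝 (|C| * 0 * ‖z - z'‖)) := (h2.const_mul _).mul_const _
    simp only [mul_zero, zero_mul] at h3
    refine h3.congr (fun T => ?_)
    ring_nf
  apply squeeze_zero_norm' _ hlim
  filter_upwards [eventually_ge_atTop (max A 1 - m)] with T hT
  exact hbound T hT

/-- `vertInt g` differs from any primitive `G` of `g` by a constant. -/
lemma exists_const_vertInt {G g : ℂ → ℂ} (hg : DifferentiableOn ℂ g {z : ℂ | 0 < z.im})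
    (hd : StripDecay g) (hG : ∀ z : ℂ, 0 < z.im → HasDerivAt G (g z) z) :
    ∃ L : ℂ, (∀ z : ℂ, 0 < z.im → vertInt g z = G z - L) ∧
      ∀ z : ℂ, 0 < z.im → Tendsto (fun T : ℝ => G (z + T * I)) atTop (𝓝 L) := by
  have hI : (0 : ℝ) < I.im := by simp
  have key : ∀ z : ℂ, 0 < z.im → G z - vertInt g z = G I - vertInt g I := by
    intro z hz
    have h1 := tendsto_vertical hg hd hG hz
    have h2 := tendsto_vertical hg hd hG hI
    have h3 := tendsto_horizontal_diff hd hG z I
    have h4 := h1.sub h2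
    have := tendsto_nhds_unique h4 h3
    exact sub_eq_zero.mp this
  refine ⟨G I - vertInt g I, fun z hz => ?_, fun z hz => ?_⟩
  · rw [← key z hz]; ring
  · rw [← key z hz]; exact tendsto_vertical hg hd hG hz

/-- `vertInt g` is a primitive of `g` on the upper half plane. -/
theorem hasDerivAt_vertInt {g : ℂ → ℂ} (hg : DifferentiableOn ℂ g {z : ℂ | 0 < z.im})
    (hd : StripDecay g) {z : ℂ} (hz : 0 < z.im) : HasDerivAt (vertInt g) (g z) z := by
  obtain ⟨G, -, hG⟩ := exists_primitive_upperHalfPlane g hg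
  obtain ⟨L, hL, -⟩ := exists_const_vertInt hg hd hG
  have h1 : HasDerivAt (fun w => G w - L) (g z) z := (hG z hz).sub_const L
  refine h1.congr_of_eventuallyEq ?_
  have hopen : IsOpen {z : ℂ | 0 < z.im} := isOpen_lt continuous_const continuous_im
  filter_upwards [hopen.mem_nhds hz] with w hw
  exact hL w hw

/-- `vertInt g` tends to zero along every vertical line. -/
theorem tendsto_vertInt_vertical {g : ℂ → ℂ} (hg : DifferentiableOn ℂ g {z : ℂ | 0 < z.im})
    (hd : StripDecay g) {z : ℂ} (hz : 0 < z.im) :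
    Tendsto (fun T : ℝ => vertInt g (z + T * I)) atTop (𝓝 0) := by
  obtain ⟨G, -, hG⟩ := exists_primitive_upperHalfPlane g hg
  obtain ⟨L, hL, hlim⟩ := exists_const_vertInt hg hd hG
  have h1 : Tendsto (fun T : ℝ => G (z + T * I) - L) atTop (𝓝 (L - L)) :=
    (hlim z hz).sub_const L
  rw [sub_self] at h1
  refine h1.congr' ?_
  filter_upwards [eventually_ge_atTop (0 : ℝ)] with T hT
  rw [hL]
  rw [im_add_mul_I]; linarith

/-- Uniqueness: a primitive of `g` with limit `L` along one vertical line is `vertInt g + L`. -/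
theorem eq_vertInt_add_of_tendsto {G g : ℂ → ℂ} (hg : DifferentiableOn ℂ g {z : ℂ | 0 < z.im})
    (hd : StripDecay g) (hG : ∀ z : ℂ, 0 < z.im → HasDerivAt G (g z) z)
    {z₀ : ℂ} (hz₀ : 0 < z₀.im) {L : ℂ}
    (hL : Tendsto (fun T : ℝ => G (z₀ + T * I)) atTop (𝓝 L)) {z : ℂ} (hz : 0 < z.im) :
    G z = vertInt g z + L := by
  obtain ⟨L', hL', hlim⟩ := exists_const_vertInt hg hd hG
  have : L = L' := tendsto_nhds_unique hL (hlim z₀ hz₀)
  rw [hL' z hz, this]; ring

end

end Fermat.Agent.Lib.Helper1
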