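import Mathlib
import Fermat.Agent.Lib.Helper3.S22Defs
import Fermat.Agent.Lib.Helper1.S22Lambda

/-!
# S22 analysis core (block (An)) in the vocabulary of `Helper3.S22Defs`
-/

set_option autoImplicit false

noncomputable section

namespace Fermat.Agent.Lib.Helper3.MS

open UpperHalfPlane ModularForm Complex Filter Topology
open scoped MatrixGroups Manifold

open Fermat.Agent.Lib.Helper1 in
/-- bridge: `Ginf` is `vertInt` of the extension by `ofComplex`. -/
theorem Ginf_eq_vertInt (H : ℍ → ℂ) (z : ℍ) :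
    Ginf H z = vertInt (H ∘ ofComplex) (z : ℂ) := by
  unfold Ginf vertInt
  congr 1
  rw [← MeasureTheory.integral_const_mul]
  congr 1
  funext t
  simp [mul_comm]

theorem isOpen_uhp : IsOpen {z : ℂ | 0 < z.im} := isOpen_lt continuous_const Complex.continuous_im

theorem ofComplex_coe_of_pos {z : ℂ} (hz : 0 < z.im) : ((ofComplex z : ℍ) : ℂ) = z := by
  rw [ofComplex_apply_of_im_pos hz]

theorem comp_ofComplex_eventuallyEq (G₀ : ℂ → ℂ) {z : ℂ} (hz : 0 < z.im) :
    ((fun τ : ℍ => G₀ (τ : ℂ)) ∘ ofComplex) =ᶠ[𝓝 z] G₀ := by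
  filter_upwards [isOpen_uhp.mem_nhds hz] with w hw
  simp only [Function.comp_apply]
  rw [ofComplex_coe_of_pos hw]

open Fermat.Agent.Lib.Helper1 in
theorem stripDecay_comp_ofComplex {H : ℍ → ℂ} (hd : StripDecay H) :
    Fermat.Agent.Lib.Helper1.StripDecay (H ∘ ofComplex) := by
  intro B
  obtain ⟨B', C, c, hc, h⟩ := hd B
  refine ⟨c, hc, C, max B' 1, fun z hzre hzim => ?_⟩
  have hz : 0 < z.im := lt_of_lt_of_le one_pos (le_trans (le_max_right _ _) hzim)
  have h1 := h (ofComplex z) (by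
    show |((ofComplex z : ℍ) : ℂ).re| ≤ B
    rw [ofComplex_coe_of_pos hz]; exact hzre) (by
    show B' ≤ ((ofComplex z : ℍ) : ℂ).im
    rw [ofComplex_coe_of_pos hz]; exact le_trans (le_max_left _ _) hzim)
  have h2 : (ofComplex z).im = z.im := by
    show ((ofComplex z : ℍ) : ℂ).im = z.im
    rw [ofComplex_coe_of_pos hz]
  rw [h2] at h1
  exact h1

theorem exists_isPrim {H : ℍ → ℂ} (hH : MDifferentiable 𝓘(ℂ) 𝓘(ℂ) H) : ∃ G, IsPrim G H := by
  have hg : DifferentiableOn ℂ (H ∘ ofComplex) {z : ℂ | 0 < z.im} :=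
    UpperHalfPlane.mdifferentiable_iff.mp hH
  obtain ⟨G₀, -, hG₀⟩ := Fermat.Agent.Lib.Helper1.exists_primitive_upperHalfPlane _ hg
  refine ⟨fun τ => G₀ (τ : ℂ), fun τ => ?_⟩
  have h1 := hG₀ (τ : ℂ) τ.im_pos
  have h2 : (H ∘ ofComplex) (τ : ℂ) = H τ := by simp
  rw [h2] at h1
  exact h1.congr_of_eventuallyEq (comp_ofComplex_eventuallyEq G₀ τ.im_pos)

theorem IsPrim.exists_const {G G' H : ℍ → ℂ} (h : IsPrim G H) (h' : IsPrim G' H) :
    ∃ c : ℂ, ∀ z, G z = G' z + c := by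
  have hconv : Convex ℝ {z : ℂ | 0 < z.im} := by
    have : {z : ℂ | 0 < z.im} = (imCLM : ℂ →L[ℝ] ℝ) ⁻¹' (Set.Ioi 0) := by
      ext w; simp
    rw [this]
    exact (convex_Ioi _).linear_preimage imCLM.toLinearMap
  have hd : ∀ z ∈ {z : ℂ | 0 < z.im},
      HasDerivAt (fun w => (G ∘ ofComplex) w - (G' ∘ ofComplex) w) 0 z := by
    intro z hz
    have h1 := h (ofComplex z)
    have h2 := h' (ofComplex z)
    rw [ofComplex_coe_of_pos hz] at h1 h2
    have h12 := h1.sub h2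
    rw [sub_self] at h12
    exact h12
  have hdiff : DifferentiableOn ℂ (fun w => (G ∘ ofComplex) w - (G' ∘ ofComplex) w)
      {z : ℂ | 0 < z.im} :=
    fun z hz => (hd z hz).differentiableAt.differentiableWithinAt
  obtain ⟨c, hc⟩ := isOpen_uhp.exists_is_const_of_deriv_eq_zero hconv.isPreconnected hdiff
    (fun z hz => (hd z hz).deriv)
  refine ⟨c, fun z => ?_⟩
  have := hc (z : ℂ) z.im_pos
  simp only [Function.comp_apply, ofComplex_apply] at this
  rw [← this]; ring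

theorem IsPrim.eq_of_vertZero {G G' H : ℍ → ℂ} (h : IsPrim G H) (h' : IsPrim G' H)
    (hz : VertZero G) (hz' : VertZero G') : G = G' := by
  obtain ⟨c, hc⟩ := h.exists_const h'
  have h1 := (hz 0).sub (hz' 0)
  have h2 : (fun t : ℝ => G (ofComplex (((0 : ℝ) : ℂ) + (t : ℂ) * Complex.I)) -
      G' (ofComplex (((0 : ℝ) : ℂ) + (t : ℂ) * Complex.I))) = fun _ => c := by
    funext t
    rw [hc]; ring
  rw [h2, sub_zero] at h1
  have hc0 : c = 0 := tendsto_nhds_unique tendsto_const_nhds h1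
  funext z
  rw [hc z, hc0, add_zero]

theorem IsPrim.comp_smul {G H : ℍ → ℂ} (h : IsPrim G H) (g : GL (Fin 2) ℝ)
    (hg : 0 < (g.det : ℝ)) : IsPrim (fun z => G (g • z)) (H ∣[(2 : ℤ)] g) := by
  intro τ
  have hg' : 0 < g.val.det := by simpa using hg
  have h1 := (hasStrictDerivAt_smul hg' τ).hasDerivAt
  have h2 := h (g • τ)
  have h3 : (fun z : ℂ => ((g • ofComplex z : ℍ) : ℂ)) (τ : ℂ) = ((g • τ : ℍ) : ℂ) := by simp
  rw [← h3] at h2
  have h4 := h2.comp (τ : ℂ) h1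
  have h5 : ((G ∘ ofComplex) ∘ fun z : ℂ => ((g • ofComplex z : ℍ) : ℂ)) =
      ((fun z : ℍ => G (g • z)) ∘ ofComplex) := by
    funext z
    simp [Function.comp_apply]
  rw [h5] at h4
  have h6 : H (g • τ) * (((g.val.det : ℝ) : ℂ) / denom g τ ^ 2) = (H ∣[(2 : ℤ)] g) τ := by
    rw [ModularForm.slash_apply, UpperHalfPlane.σ, if_pos hg]
    simp only [ContinuousAlgEquiv.refl_apply]
    have hdet : (g.det : ℝ) = g.val.det := by simp
    rw [show (2 : ℤ) - 1 = 1 by norm_num, zpow_one, abs_of_pos hg, hdet]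
    rw [zpow_neg, zpow_two, pow_two]
    have hden : denom g τ ≠ 0 := denom_ne_zero g τ
    field_simp
  rw [h6] at h4
  exact h4

open Fermat.Agent.Lib.Helper1 in
theorem Ginf_isPrim {H : ℍ → ℂ} (hH : MDifferentiable 𝓘(ℂ) 𝓘(ℂ) H) (hd : StripDecay H) :
    IsPrim (Ginf H) H := by
  have hg : DifferentiableOn ℂ (H ∘ ofComplex) {z : ℂ | 0 < z.im} :=
    UpperHalfPlane.mdifferentiable_iff.mp hH
  have hd' := stripDecay_comp_ofComplex hd
  intro τ
  have h1 := hasDerivAt_vertInt hg hd' τ.im_pos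
  have h2 : (H ∘ ofComplex) (τ : ℂ) = H τ := by simp
  rw [h2] at h1
  refine h1.congr_of_eventuallyEq ?_
  have h3 := comp_ofComplex_eventuallyEq (vertInt (H ∘ ofComplex)) τ.im_pos
  refine Filter.EventuallyEq.trans ?_ h3
  apply Filter.Eventually.of_forall
  intro z
  simp only [Function.comp_apply]
  rw [Ginf_eq_vertInt]

open Fermat.Agent.Lib.Helper1 in
theorem Ginf_vertZero {H : ℍ → ℂ} (hH : MDifferentiable 𝓘(ℂ) 𝓘(ℂ) H) (hd : StripDecay H) :
    VertZero (Ginf H) := by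
  have hg : DifferentiableOn ℂ (H ∘ ofComplex) {z : ℂ | 0 < z.im} :=
    UpperHalfPlane.mdifferentiable_iff.mp hH
  have hd' := stripDecay_comp_ofComplex hd
  intro x
  have hz : 0 < ((x : ℂ) + Complex.I).im := by simp
  have h1 := tendsto_vertInt_vertical hg hd' hz
  -- reparametrise t = T + 1
  have h2 : Tendsto (fun t : ℝ => t - 1) atTop atTop :=
    tendsto_atTop_add_const_right atTop (-1) tendsto_id
  have h3 := h1.comp h2
  refine h3.congr' ?_
  filter_upwards [eventually_gt_atTop (0 : ℝ)] with t ht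
  simp only [Function.comp_apply]
  rw [Ginf_eq_vertInt]
  have h4 : 0 < ((x : ℂ) + (t : ℂ) * Complex.I).im := by simpa using ht
  rw [ofComplex_coe_of_pos h4]
  congr 1
  push_cast
  ring

end Fermat.Agent.Lib.Helper3.MS

end
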