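import Mathlib
import Fermat.Prelude.Def_CuspForm_HeckeAlgebra
import Fermat.Prelude.Thm_ModularForm_sturm_bound_Gamma0
import Fermat.Agent.Lib.Helper3.S22Defs
import Fermat.Agent.Lib.Helper1.S22Analysis
import Fermat.Agent.Lib.Helper3.S22Poly
import Fermat.Agent.Lib.Helper3.S22Decay
import Fermat.Agent.Lib.Helper3.S22Periods
import Fermat.Agent.Lib.Helper8.S22Cuspidal

/-!
# S22 block (Sep): a cusp form all of whose periods vanish is zero
-/

set_option autoImplicit false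

noncomputable section

namespace Fermat.Agent.Lib.Helper3.MS

open UpperHalfPlane ModularForm Complex Filter Topology
open scoped MatrixGroups Manifold

/-! ### generalities on `IsDiff`, `Ginf`, `period` and finite sums -/

theorem Ginf_zero : Ginf (0 : ℍ → ℂ) = 0 := by
  funext z
  simp [Ginf]

theorem isDiff_sum {ι : Type*} (s : Finset ι) (c : ι → ℂ) (H : ι → ℍ → ℂ)
    (h : ∀ i ∈ s, IsDiff (H i)) : IsDiff (∑ i ∈ s, c i • H i) := by
  classical
  induction s using Finset.induction_on with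
  | empty => simpa using isDiff_zero
  | insert a s ha ih =>
    rw [Finset.sum_insert ha]
    exact ((h a (Finset.mem_insert_self a s)).smul (c a)).add
      (ih fun i hi => h i (Finset.mem_insert_of_mem hi))

theorem Ginf_sum {ι : Type*} (s : Finset ι) (c : ι → ℂ) (H : ι → ℍ → ℂ)
    (h : ∀ i ∈ s, IsDiff (H i)) :
    Ginf (∑ i ∈ s, c i • H i) = ∑ i ∈ s, c i • Ginf (H i) := by
  classical
  induction s using Finset.induction_on with
  | empty => simpa using Ginf_zero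
  | insert a s ha ih =>
    rw [Finset.sum_insert ha, Finset.sum_insert ha,
      Ginf_add ((h a (Finset.mem_insert_self a s)).smul (c a))
        (isDiff_sum s c H fun i hi => h i (Finset.mem_insert_of_mem hi)),
      Ginf_smul (h a (Finset.mem_insert_self a s)),
      ih fun i hi => h i (Finset.mem_insert_of_mem hi)]

theorem period_sum_smul {ι : Type*} (s : Finset ι) (c : ι → ℂ) (H : ι → ℍ → ℂ)
    (h : ∀ i ∈ s, IsDiff (H i)) (γ : SL(2, ℤ)) :
    period (∑ i ∈ s, c i • H i) γ = ∑ i ∈ s, c i * period (H i) γ := by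
  classical
  induction s using Finset.induction_on with
  | empty => simpa using period_zero γ
  | insert a s ha ih =>
    rw [Finset.sum_insert ha, Finset.sum_insert ha,
      period_add ((h a (Finset.mem_insert_self a s)).smul (c a))
        (isDiff_sum s c H fun i hi => h i (Finset.mem_insert_of_mem hi)),
      period_smul (h a (Finset.mem_insert_self a s)),
      ih fun i hi => h i (Finset.mem_insert_of_mem hi)]

/-! ### monomials and shifted powers -/

/-- `u ↦ (u - z₀)^m` -/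
def shiftPow (m : ℕ) (z₀ : ℂ) : ℍ → ℂ := fun u => ((u : ℂ) - z₀) ^ m

theorem isPolyFun_mono {w j : ℕ} (hj : j ≤ w) : IsPolyFun w (fun z : ℍ => (z : ℂ) ^ j) :=
  ⟨Polynomial.X ^ j, (Polynomial.natDegree_X_pow_le j).trans hj, fun z => by simp⟩

theorem shiftPow_eq_sum (m : ℕ) (z₀ : ℂ) :
    shiftPow m z₀ = ∑ j ∈ Finset.range (m + 1),
      ((m.choose j : ℂ) * (-z₀) ^ (m - j)) • (fun z : ℍ => (z : ℂ) ^ j) := by
  funext u
  simp only [shiftPow, Finset.sum_apply, Pi.smul_apply, smul_eq_mul]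
  rw [sub_eq_add_neg, add_pow]
  refine Finset.sum_congr rfl fun j _ => ?_
  ring

theorem mul_shiftPow_eq_sum (F : ℍ → ℂ) (m : ℕ) (z₀ : ℂ) :
    F * shiftPow m z₀ = ∑ j ∈ Finset.range (m + 1),
      ((m.choose j : ℂ) * (-z₀) ^ (m - j)) • (F * fun z : ℍ => (z : ℂ) ^ j) := by
  rw [shiftPow_eq_sum, Finset.mul_sum]
  refine Finset.sum_congr rfl fun j _ => ?_
  rw [mul_smul_comm]

section Cuspidal

variable {k : ℤ} {w : ℕ} (hk : k = w + 2) {F : ℍ → ℂ} (hF : IsCuspidal k F)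
include hk hF

theorem isDiff_mul_mono {j : ℕ} (hj : j ≤ w) : IsDiff (F * fun z : ℍ => (z : ℂ) ^ j) :=
  hF.mul_isPolyFun hk (isPolyFun_mono hj)

theorem isDiff_mul_shiftPow {m : ℕ} (hm : m ≤ w) (z₀ : ℂ) : IsDiff (F * shiftPow m z₀) := by
  rw [mul_shiftPow_eq_sum]
  exact isDiff_sum _ _ _ fun j hj =>
    isDiff_mul_mono hk hF ((Nat.lt_succ_iff.mp (Finset.mem_range.mp hj)).trans hm)

theorem Ginf_mul_shiftPow {m : ℕ} (hm : m ≤ w) (z₀ : ℂ) (z : ℍ) :
    Ginf (F * shiftPow m z₀) z = ∑ j ∈ Finset.range (m + 1),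
      ((m.choose j : ℂ) * (-z₀) ^ (m - j)) * Ginf (F * fun z : ℍ => (z : ℂ) ^ j) z := by
  rw [mul_shiftPow_eq_sum, Ginf_sum _ _ _ fun j hj =>
    isDiff_mul_mono hk hF ((Nat.lt_succ_iff.mp (Finset.mem_range.mp hj)).trans hm)]
  simp [Finset.sum_apply]

theorem period_mul_shiftPow {m : ℕ} (hm : m ≤ w) (z₀ : ℂ) (γ : SL(2, ℤ))
    (hper : ∀ j, j ≤ w → period (F * fun z : ℍ => (z : ℂ) ^ j) γ = 0) :
    period (F * shiftPow m z₀) γ = 0 := by
  rw [mul_shiftPow_eq_sum, period_sum_smul _ _ _ (fun j hj =>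
    isDiff_mul_mono hk hF ((Nat.lt_succ_iff.mp (Finset.mem_range.mp hj)).trans hm))]
  refine Finset.sum_eq_zero fun j hj => ?_
  rw [hper j ((Nat.lt_succ_iff.mp (Finset.mem_range.mp hj)).trans hm), mul_zero]

end Cuspidal


/-! ### the Eichler integral -/

/-- `E_m(z) = ∫_{i∞}^z F(u) (u - z)^m du` -/
def eich (F : ℍ → ℂ) (m : ℕ) : ℍ → ℂ := fun z => Ginf (F * shiftPow m (z : ℂ)) z

/-- the same function on `ℂ`, in expanded form -/
def eichC (F : ℍ → ℂ) (m : ℕ) : ℂ → ℂ := fun z => ∑ j ∈ Finset.range (m + 1),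
  ((m.choose j : ℂ) * (-z) ^ (m - j)) * (Ginf (F * fun z : ℍ => (z : ℂ) ^ j) ∘ ofComplex) z

section Cuspidal

variable {k : ℤ} {w : ℕ} (hk : k = w + 2) {F : ℍ → ℂ} (hF : IsCuspidal k F)
include hk hF

theorem eichC_coe {m : ℕ} (hm : m ≤ w) (z : ℍ) : eichC F m (z : ℂ) = eich F m z := by
  unfold eichC eich
  rw [Ginf_mul_shiftPow hk hF hm]
  simp

theorem hasDerivAt_eichC_zero (τ : ℍ) : HasDerivAt (eichC F 0) (F τ) (τ : ℂ) := by
  have h1 := (isDiff_mul_mono hk hF (Nat.zero_le w)).Ginf_isPrim τ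
  have h2 : eichC F 0 = (Ginf (F * fun z : ℍ => (z : ℂ) ^ 0) ∘ ofComplex) := by
    funext z
    simp [eichC]
  rw [h2]
  have h3 : (F * fun z : ℍ => (z : ℂ) ^ 0) τ = F τ := by simp
  rw [h3] at h1
  exact h1

theorem hasDerivAt_eichC_succ {m : ℕ} (hm : m + 1 ≤ w) (τ : ℍ) :
    HasDerivAt (eichC F (m + 1)) (-((m : ℂ) + 1) * eichC F m (τ : ℂ)) (τ : ℂ) := by
  set L : ℕ → ℂ → ℂ := fun j => (Ginf (F * fun z : ℍ => (z : ℂ) ^ j) ∘ ofComplex) with hL
  have hLd : ∀ j, j ≤ w → HasDerivAt (L j) (F τ * (τ : ℂ) ^ j) (τ : ℂ) := by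
    intro j hj
    have h1 := (isDiff_mul_mono hk hF hj).Ginf_isPrim τ
    exact h1
  -- derivative of each term
  have hterm : ∀ j ∈ Finset.range (m + 1 + 1),
      HasDerivAt (fun z : ℂ => (((m + 1).choose j : ℂ) * (-z) ^ (m + 1 - j)) * L j z)
        ((((m + 1).choose j : ℂ) * (((m + 1 - j : ℕ) : ℂ) * (-(τ : ℂ)) ^ (m + 1 - j - 1) * (-1))) *
            L j (τ : ℂ)
          + (((m + 1).choose j : ℂ) * (-(τ : ℂ)) ^ (m + 1 - j)) * (F τ * (τ : ℂ) ^ j)) (τ : ℂ) := by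
    intro j hj
    have hjw : j ≤ w := (Nat.lt_succ_iff.mp (Finset.mem_range.mp hj)).trans hm
    have h1 : HasDerivAt (fun z : ℂ => (-z) ^ (m + 1 - j))
        (((m + 1 - j : ℕ) : ℂ) * (-(τ : ℂ)) ^ (m + 1 - j - 1) * (-1)) (τ : ℂ) :=
      ((hasDerivAt_id (τ : ℂ)).neg).pow (m + 1 - j)
    exact (h1.const_mul _).mul (hLd j hjw)
  have hsum := HasDerivAt.sum hterm
  have hfun : (∑ j ∈ Finset.range (m + 1 + 1),
      fun z : ℂ => (((m + 1).choose j : ℂ) * (-z) ^ (m + 1 - j)) * L j z) = eichC F (m + 1) := by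
    funext z
    simp [eichC, hL, Finset.sum_apply]
  rw [hfun] at hsum
  refine hsum.congr_deriv ?_
  symm
  rw [Finset.sum_add_distrib]
  -- the second sum vanishes by the binomial theorem
  have h2 : ∑ j ∈ Finset.range (m + 1 + 1),
      (((m + 1).choose j : ℂ) * (-(τ : ℂ)) ^ (m + 1 - j)) * (F τ * (τ : ℂ) ^ j) = 0 := by
    have := add_pow (τ : ℂ) (-(τ : ℂ)) (m + 1)
    rw [add_neg_cancel, zero_pow (Nat.succ_ne_zero m)] at this
    calc _ = F τ * ∑ j ∈ Finset.range (m + 1 + 1),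
          (τ : ℂ) ^ j * (-(τ : ℂ)) ^ (m + 1 - j) * ((m + 1).choose j : ℂ) := by
            rw [Finset.mul_sum]
            refine Finset.sum_congr rfl fun j _ => ?_
            ring
      _ = 0 := by rw [← this, mul_zero]
  rw [h2, add_zero, Finset.sum_range_succ]
  have h3 : (((m + 1).choose (m + 1) : ℂ) *
      (((m + 1 - (m + 1) : ℕ) : ℂ) * (-(τ : ℂ)) ^ (m + 1 - (m + 1) - 1) * (-1))) *
        L (m + 1) (τ : ℂ) = 0 := by
    simp
  rw [h3, add_zero]
  unfold eichC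
  rw [Finset.mul_sum]
  refine Finset.sum_congr rfl fun j hj => ?_
  have hjm : j ≤ m := Nat.lt_succ_iff.mp (Finset.mem_range.mp hj)
  have hnat : (m.choose j : ℂ) * ((m : ℂ) + 1) = ((m + 1).choose j : ℂ) * ((m + 1 - j : ℕ) : ℂ) := by
    have := Nat.choose_mul_succ_eq m j
    exact_mod_cast this
  have hexp : m + 1 - j - 1 = m - j := by omega
  rw [hexp]
  simp only [hL]
  linear_combination (-(-(τ : ℂ)) ^ (m - j) * (Ginf (F * fun z : ℍ => (z : ℂ) ^ j) ∘ ofComplex) (τ : ℂ)) * hnat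


omit hk hF in
theorem hasDerivAt_zero_of_vanish {f : ℂ → ℂ} (hf : ∀ z : ℍ, f (z : ℂ) = 0) (τ : ℍ) :
    HasDerivAt f 0 (τ : ℂ) := by
  have h0 : HasDerivAt (fun _ : ℂ => (0 : ℂ)) 0 (τ : ℂ) := hasDerivAt_const _ _
  refine h0.congr_of_eventuallyEq ?_
  filter_upwards [isOpen_uhp.mem_nhds τ.im_pos] with z hz
  have := hf ⟨z, hz⟩
  simpa using this

theorem eichC_eq_zero_of_eich_eq_zero (h : ∀ z : ℍ, eich F w z = 0) :
    ∀ d m : ℕ, m + d = w → ∀ τ : ℍ, eichC F m (τ : ℂ) = 0 := by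
  intro d
  induction d with
  | zero =>
    intro m hm τ
    have hm' : m = w := by omega
    subst hm'
    rw [eichC_coe hk hF le_rfl, h]
  | succ d ih =>
    intro m hm τ
    have hm1 : m + 1 + d = w := by omega
    have hvan := ih (m + 1) hm1
    have h1 := hasDerivAt_zero_of_vanish hvan τ
    have h2 := hasDerivAt_eichC_succ hk hF (m := m) (by omega) τ
    have h3 := h2.unique h1
    have h4 : ((m : ℂ) + 1) ≠ 0 := by exact_mod_cast Nat.succ_ne_zero m
    have h5 : -((m : ℂ) + 1) ≠ 0 := neg_ne_zero.mpr h4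
    exact (mul_eq_zero.mp h3).resolve_left h5

theorem eq_zero_of_eich_eq_zero (h : ∀ z : ℍ, eich F w z = 0) (τ : ℍ) : F τ = 0 := by
  have hvan := eichC_eq_zero_of_eich_eq_zero hk hF h w 0 (by omega)
  have h1 := hasDerivAt_zero_of_vanish hvan τ
  have h2 := hasDerivAt_eichC_zero hk hF τ
  exact h2.unique h1


end Cuspidal

/-! ### transformation law -/

theorem coe_smul_sub_coe_smul (γ : SL(2, ℤ)) (u z : ℍ) :
    ((γ • u : ℍ) : ℂ) - ((γ • z : ℍ) : ℂ) = ((u : ℂ) - (z : ℂ)) / (denom γ u * denom γ z) := by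
  have hu : denom γ u ≠ 0 := denom_ne_zero _ u
  have hz : denom γ z ≠ 0 := denom_ne_zero _ z
  rw [coe_specialLinearGroup_apply, coe_specialLinearGroup_apply]
  rw [ModularGroup.denom_apply] at hu hz ⊢
  rw [ModularGroup.denom_apply]
  simp only [algebraMap_int_eq, eq_intCast, ofReal_intCast] at hu hz ⊢
  have hdet : ((γ 0 0 : ℤ) : ℂ) * (γ 1 1 : ℤ) - (γ 0 1 : ℤ) * (γ 1 0 : ℤ) = 1 := by
    have := γ.det_coe
    rw [Matrix.det_fin_two] at this
    exact_mod_cast this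
  generalize ((γ 0 0 : ℤ) : ℂ) = a at *
  generalize ((γ 0 1 : ℤ) : ℂ) = b at *
  generalize ((γ 1 0 : ℤ) : ℂ) = c at *
  generalize ((γ 1 1 : ℤ) : ℂ) = d at *
  rw [div_sub_div _ _ hu hz, div_eq_div_iff (mul_ne_zero hu hz) (mul_ne_zero hu hz)]
  linear_combination ((u : ℂ) - (z : ℂ)) * (c * (u : ℂ) + d) * (c * (z : ℂ) + d) * hdet

theorem polyAct_shiftPow (w : ℕ) (γ : SL(2, ℤ)) (z : ℍ) :
    polyAct w (SLtoPos γ) (shiftPow w ((γ • z : ℍ) : ℂ)) =
      ((denom γ z) ^ w)⁻¹ • shiftPow w (z : ℂ) := by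
  funext u
  have hu : denom γ u ≠ 0 := denom_ne_zero _ u
  have hz : denom γ z ≠ 0 := denom_ne_zero _ z
  simp only [polyAct, shiftPow, toGL_SLtoPos, Pi.smul_apply, smul_eq_mul]
  rw [← ModularGroup.sl_moeb, coe_smul_sub_coe_smul, div_pow, mul_pow]
  field_simp

section Cuspidal

variable {k : ℤ} {w : ℕ} (hk : k = w + 2) {F : ℍ → ℂ} (hF : IsCuspidal k F)
include hk hF

theorem eich_smul (γ : SL(2, ℤ))
    (hper : ∀ j, j ≤ w → period (F * fun z : ℍ => (z : ℂ) ^ j) γ = 0) (z : ℍ) :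
    eich F w (γ • z) = ((denom γ z) ^ w)⁻¹ * eich (F ∣[k] γ) w z := by
  unfold eich
  rw [period_spec (isDiff_mul_shiftPow hk hF le_rfl _) γ z,
    period_mul_shiftPow hk hF le_rfl _ γ hper, add_zero, mul_slash_two_SL hk, polyAct_shiftPow,
    mul_smul_comm, Ginf_smul (isDiff_mul_shiftPow hk (hF.slash_SL γ) le_rfl _)]
  rfl

theorem eich_slash (γ : SL(2, ℤ))
    (hper : ∀ j, j ≤ w → period (F * fun z : ℍ => (z : ℂ) ^ j) γ = 0) :
    (eich F w) ∣[(-(w : ℤ))] γ = eich (F ∣[k] γ) w := by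
  funext z
  have hz : denom γ z ≠ 0 := denom_ne_zero _ z
  rw [ModularForm.SL_slash_apply, eich_smul hk hF γ hper z, neg_neg, zpow_natCast]
  field_simp

end Cuspidal


/-! ### decay of the Eichler integral -/

theorem integrableOn_pow_mul_exp (w : ℕ) {c : ℝ} (hc : 0 < c) :
    MeasureTheory.IntegrableOn (fun t : ℝ => t ^ w * Real.exp (-c * t)) (Set.Ioi 0) := by
  have h := integrableOn_rpow_mul_exp_neg_mul_rpow (s := (w : ℝ)) (p := 1) (b := c)
    (by have : (0 : ℝ) ≤ w := Nat.cast_nonneg w; linarith) one_pos hc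
  refine h.congr_fun (fun t ht => ?_) measurableSet_Ioi
  simp only [Real.rpow_natCast, Real.rpow_one]

theorem ExpDecay.exists_bound_nonneg {F : ℍ → ℂ} (h : ExpDecay F) :
    ∃ c : ℝ, 0 < c ∧ ∃ C A : ℝ, 0 ≤ C ∧ ∀ z : ℍ, A ≤ z.im → ‖F z‖ ≤ C * Real.exp (-c * z.im) := by
  obtain ⟨c, hc, hO⟩ := h
  obtain ⟨C, hC⟩ := Asymptotics.isBigO_iff.mp hO
  obtain ⟨A, hA⟩ := (atImInfty_mem _).mp hC
  refine ⟨c, hc, |C|, A, abs_nonneg C, fun z hz => ?_⟩
  have h1 := hA z hz
  simp only [Set.mem_ofPred_eq] at h1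
  rw [Real.norm_eq_abs, abs_of_pos (Real.exp_pos _)] at h1
  exact h1.trans (mul_le_mul_of_nonneg_right (le_abs_self C) (Real.exp_pos _).le)

theorem eich_decay {F : ℍ → ℂ} (hF : ExpDecay F) (w : ℕ) :
    ∃ c : ℝ, 0 < c ∧ ∃ C A : ℝ, ∀ z : ℍ, A ≤ z.im → ‖eich F w z‖ ≤ C * Real.exp (-c * z.im) := by
  obtain ⟨c, hc, C, A, hC0, hb⟩ := hF.exists_bound_nonneg
  refine ⟨c, hc, C * ∫ t in Set.Ioi (0 : ℝ), t ^ w * Real.exp (-c * t), A, fun z hz => ?_⟩
  unfold eich Ginf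
  rw [norm_neg, norm_mul, Complex.norm_I, one_mul]
  have hint : MeasureTheory.IntegrableOn
      (fun t : ℝ => C * Real.exp (-c * z.im) * (t ^ w * Real.exp (-c * t))) (Set.Ioi 0) :=
    (integrableOn_pow_mul_exp w hc).const_mul _
  have hle := MeasureTheory.norm_integral_le_of_norm_le (μ := MeasureTheory.volume.restrict (Set.Ioi 0))
    (f := fun t : ℝ => (F * shiftPow w (z : ℂ)) (ofComplex ((z : ℂ) + (t : ℂ) * Complex.I)))
    hint ?_
  · refine hle.trans (le_of_eq ?_)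
    rw [MeasureTheory.integral_const_mul]
    ring
  · refine (MeasureTheory.ae_restrict_iff' measurableSet_Ioi).mpr (Filter.Eventually.of_forall ?_)
    intro t ht
    have ht0 : (0 : ℝ) < t := ht
    have him : 0 < ((z : ℂ) + (t : ℂ) * Complex.I).im := by
      simp only [Complex.add_im, Complex.mul_im, Complex.ofReal_re, Complex.I_im, Complex.ofReal_im,
        Complex.I_re]
      have := z.im_pos
      simp only [UpperHalfPlane.coe_im]
      linarith
    have hcoe := ofComplex_coe_of_pos him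
    set τ := ofComplex ((z : ℂ) + (t : ℂ) * Complex.I) with hτ
    have hτim : τ.im = z.im + t := by
      show ((τ : ℍ) : ℂ).im = z.im + t
      rw [hcoe]
      simp
    have h1 : ‖F τ‖ ≤ C * Real.exp (-c * τ.im) := hb τ (by rw [hτim]; linarith)
    have h2 : (F * shiftPow w (z : ℂ)) τ = F τ * ((t : ℂ) * Complex.I) ^ w := by
      simp only [Pi.mul_apply, shiftPow]
      rw [hcoe]
      congr 2
      ring
    rw [h2, norm_mul, norm_pow, norm_mul, Complex.norm_I, mul_one, Complex.norm_real,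
      Real.norm_eq_abs, abs_of_pos ht0]
    have h3 : Real.exp (-c * τ.im) = Real.exp (-c * z.im) * Real.exp (-c * t) := by
      rw [hτim, ← Real.exp_add]; ring_nf
    rw [h3] at h1
    calc ‖F τ‖ * t ^ w ≤ (C * (Real.exp (-c * z.im) * Real.exp (-c * t))) * t ^ w :=
          mul_le_mul_of_nonneg_right h1 (pow_nonneg ht0.le w)
      _ = C * Real.exp (-c * z.im) * (t ^ w * Real.exp (-c * t)) := by ring

theorem isZeroAtImInfty_of_exp_bound {f : ℍ → ℂ} {c C A : ℝ} (hc : 0 < c)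
    (h : ∀ z : ℍ, A ≤ z.im → ‖f z‖ ≤ C * Real.exp (-c * z.im)) : IsZeroAtImInfty f := by
  rw [isZeroAtImInfty_iff]
  intro ε hε
  have h1 : Tendsto (fun y : ℝ => C * Real.exp (-(c * y))) atTop (𝓝 (C * 0)) :=
    (Real.tendsto_exp_neg_atTop_nhds_zero.comp (tendsto_id.const_mul_atTop hc)).const_mul C
  rw [mul_zero] at h1
  obtain ⟨A', hA'⟩ := eventually_atTop.mp (h1.eventually (gt_mem_nhds hε))
  refine ⟨max A A', fun z hz => ?_⟩
  have h2 := h z (le_trans (le_max_left _ _) hz)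
  have h3 := hA' z.im (le_trans (le_max_right _ _) hz)
  have h4 : C * Real.exp (-c * z.im) = C * Real.exp (-(c * z.im)) := by ring_nf
  rw [h4] at h2
  exact h2.trans h3.le

theorem eich_isZeroAtImInfty {F : ℍ → ℂ} (hF : ExpDecay F) (w : ℕ) :
    IsZeroAtImInfty (eich F w) := by
  obtain ⟨c, hc, C, A, h⟩ := eich_decay hF w
  exact isZeroAtImInfty_of_exp_bound hc h

theorem IsCuspidal.expDecay {k : ℤ} {F : ℍ → ℂ} (hF : IsCuspidal k F) : ExpDecay F := by
  have h1 := hF.decay 1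
  rw [map_one, SlashAction.slash_one] at h1
  exact h1


/-! ### assembly -/

theorem eich_mdifferentiable {k : ℤ} {w : ℕ} (hk : k = w + 2) {F : ℍ → ℂ} (hF : IsCuspidal k F) :
    MDifferentiable 𝓘(ℂ) 𝓘(ℂ) (eich F w) := by
  rw [UpperHalfPlane.mdifferentiable_iff]
  intro z hz
  have hd : DifferentiableAt ℂ (eichC F w) z := by
    rcases Nat.eq_zero_or_pos w with h0 | hpos
    · have hk0 : k = (0 : ℕ) + 2 := by rw [hk, h0]
      have := hasDerivAt_eichC_zero hk0 hF ⟨z, hz⟩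
      rw [h0]
      exact this.differentiableAt
    · obtain ⟨m, rfl⟩ := Nat.exists_eq_succ_of_ne_zero hpos.ne'
      exact (hasDerivAt_eichC_succ hk hF (m := m) le_rfl ⟨z, hz⟩).differentiableAt
  refine (hd.congr_of_eventuallyEq ?_).differentiableWithinAt
  filter_upwards [isOpen_uhp.mem_nhds hz] with z' hz'
  simp only [Function.comp_apply]
  rw [← eichC_coe hk hF le_rfl, ofComplex_coe_of_pos hz']

/-- The Eichler integral of a cusp form with vanishing periods, as a modular form of weight `-w`. -/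
def eichForm {N : ℕ} [NeZero N] {k : ℤ} {w : ℕ} (hk : k = w + 2)
    (f : CuspForm (CongruenceSubgroup.Gamma0 N) k)
    (h : ∀ (γ : SL(2, ℤ)) (j : ℕ), j ≤ w → period ((⇑f) * fun z : ℍ => (z : ℂ) ^ j) γ = 0) :
    ModularForm (CongruenceSubgroup.Gamma0 N) (-(w : ℤ)) where
  toFun := eich f w
  slash_action_eq' := by
    intro γ hγ
    obtain ⟨γ', hγ', rfl⟩ := Subgroup.mem_map.mp hγ
    have h1 := eich_slash hk (isCuspidal_cuspForm f) γ' (h γ')
    have h2 : (⇑f ∣[k] γ') = ⇑f := SlashInvariantFormClass.slash_action_eq f _ hγ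
    rw [h2] at h1
    exact h1
  holo' := eich_mdifferentiable hk (isCuspidal_cuspForm f)
  bdd_at_cusps' := by
    intro c hc
    rw [Subgroup.IsArithmetic.isCusp_iff_isCusp_SL2Z] at hc
    rw [OnePoint.isBoundedAt_iff_forall_SL2Z hc]
    intro σ _
    have h1 := eich_slash hk (isCuspidal_cuspForm f) σ (h σ)
    show IsBoundedAtImInfty ((eich f w) ∣[(-(w : ℤ))] σ)
    rw [h1]
    exact (eich_isZeroAtImInfty ((isCuspidal_cuspForm f).slash_SL σ).expDecay w).isBoundedAtImInfty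

theorem eichForm_eq_zero {N : ℕ} [NeZero N] {k : ℤ} {w : ℕ} (hk : k = w + 2)
    (f : CuspForm (CongruenceSubgroup.Gamma0 N) k)
    (h : ∀ (γ : SL(2, ℤ)) (j : ℕ), j ≤ w → period ((⇑f) * fun z : ℍ => (z : ℂ) ^ j) γ = 0) :
    eichForm hk f h = 0 := by
  apply ModularForm.sturm_bound_Gamma0 N
  intro n hn
  have h0 : (-(w : ℤ) * ((CongruenceSubgroup.Gamma0 N).index : ℤ)).toNat = 0 := by
    apply Int.toNat_eq_zero.mpr
    have h1 : (0 : ℤ) ≤ (w : ℤ) := Int.natCast_nonneg w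
    have h2 : (0 : ℤ) ≤ ((CongruenceSubgroup.Gamma0 N).index : ℤ) := Int.natCast_nonneg _
    nlinarith
  rw [h0] at hn
  have hn0 : n = 0 := by omega
  subst hn0
  have hz : IsZeroAtImInfty (eichForm hk f h : ℍ → ℂ) :=
    eich_isZeroAtImInfty (isCuspidal_cuspForm f).expDecay w
  simp [qExpansion_coeff, hz.cuspFunction_apply_zero one_pos]

/-- If all periods of a cusp form vanish, it is zero. -/
theorem eq_zero_of_periods_eq_zero {N : ℕ} [NeZero N] {k : ℤ} {w : ℕ} (hk : k = w + 2)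
    (f : CuspForm (CongruenceSubgroup.Gamma0 N) k)
    (h : ∀ (g γ : SL(2, ℤ)) (j : ℕ), j ≤ w →
      period ((⇑f ∣[k] g) * fun z : ℍ => (z : ℂ) ^ j) γ = 0) : f = 0 := by
  have h' : ∀ (γ : SL(2, ℤ)) (j : ℕ), j ≤ w →
      period ((⇑f) * fun z : ℍ => (z : ℂ) ^ j) γ = 0 := by
    intro γ j hj
    have := h 1 γ j hj
    rwa [SlashAction.slash_one] at this
  have h0 := eichForm_eq_zero hk f h'
  have h1 : ∀ z : ℍ, eich f w z = 0 := by
    intro z
    have := congrArg (fun F : ModularForm (CongruenceSubgroup.Gamma0 N) (-(w : ℤ)) => F z) h0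
    exact this
  ext z
  exact eq_zero_of_eich_eq_zero hk (isCuspidal_cuspForm f) h1 z

end Fermat.Agent.Lib.Helper3.MS

end
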